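import Mathlib.FieldTheory.IntermediateField.Adjoin.Basic
import Mathlib.FieldTheory.Galois.Basic
import Mathlib.FieldTheory.Minpoly.Field
import Mathlib.GroupTheory.Sylow
import Mathlib.GroupTheory.Index
import Mathlib.Analysis.Complex.Basic
import Mathlib.Tactic

/-!
# Numbers constructible with ruler and compass: algebra (helper56)

`IsConstructible z`: `z` is obtained from `0` and `1` by the four operations of a field and by
extraction of square roots. (The geometric definition is treated in `Construct/Points.lean`.)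

* `Tower K`: `K` is obtained from `ℚ` by successive adjunction of square roots; its degree is a
  power of `2`, and every constructible number lies in such a field (`IsConstructible.exists_tower`);
* `finrank_of_isConstructible` (Wantzel 1837): `[ℚ(z) : ℚ]` is a power of `2`;
* `isConstructible_of_isPGroup`: the elements of a finite Galois extension of `ℚ` whose group is a
  `2`-group are constructible.
-/

set_option autoImplicit false

open IntermediateField

namespace Fermat.Agent.Cor.Construct

/-- `z` is obtained from `0` and `1` by the operations of a field and by square roots. -/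
inductive IsConstructible {F : Type*} [Field F] : F → Prop
  | zero : IsConstructible 0
  | one : IsConstructible 1
  | add {a b : F} : IsConstructible a → IsConstructible b → IsConstructible (a + b)
  | neg {a : F} : IsConstructible a → IsConstructible (-a)
  | mul {a b : F} : IsConstructible a → IsConstructible b → IsConstructible (a * b)
  | inv {a : F} : IsConstructible a → IsConstructible a⁻¹
  | sqrt {a : F} : IsConstructible (a ^ 2) → IsConstructible a

namespace IsConstructible

variable {F : Type*} [Field F]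

theorem sub {a b : F} (ha : IsConstructible a) (hb : IsConstructible b) :
    IsConstructible (a - b) := by
  rw [sub_eq_add_neg]
  exact ha.add hb.neg

theorem div {a b : F} (ha : IsConstructible a) (hb : IsConstructible b) :
    IsConstructible (a / b) := by
  rw [div_eq_mul_inv]
  exact ha.mul hb.inv

theorem pow {a : F} (ha : IsConstructible a) (n : ℕ) : IsConstructible (a ^ n) := by
  induction n with
  | zero => rw [pow_zero]; exact one
  | succ n ih => rw [pow_succ]; exact ih.mul ha

theorem natCast (n : ℕ) : IsConstructible (n : F) := by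
  induction n with
  | zero => rw [Nat.cast_zero]; exact zero
  | succ n ih => rw [Nat.cast_succ]; exact ih.add one

theorem intCast (n : ℤ) : IsConstructible (n : F) := by
  obtain ⟨m, rfl | rfl⟩ := n.eq_nat_or_neg
  · rw [Int.cast_natCast]; exact natCast m
  · rw [Int.cast_neg, Int.cast_natCast]; exact (natCast m).neg

theorem ratCast [CharZero F] (q : ℚ) : IsConstructible (q : F) := by
  rw [Rat.cast_def]
  exact (intCast _).div (natCast _)

theorem two : IsConstructible (2 : F) := by
  have := natCast (F := F) 2
  rwa [Nat.cast_ofNat] at this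

/-- A homomorphism of fields respects constructible numbers. -/
theorem map {F' : Type*} [Field F'] (φ : F →+* F') {a : F} (h : IsConstructible a) :
    IsConstructible (φ a) := by
  induction h with
  | zero => rw [map_zero]; exact zero
  | one => rw [map_one]; exact one
  | add _ _ h1 h2 => rw [map_add]; exact h1.add h2
  | neg _ h1 => rw [map_neg]; exact h1.neg
  | mul _ _ h1 h2 => rw [map_mul]; exact h1.mul h2
  | inv _ h1 => rw [map_inv₀]; exact h1.inv
  | sqrt _ h1 => rw [map_pow] at h1; exact h1.sqrt

/-- Quadratic equations. -/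
theorem of_quadratic [CharZero F] {A B C t : F} (hA : IsConstructible A) (hB : IsConstructible B)
    (hC : IsConstructible C) (hA0 : A ≠ 0) (h : A * t ^ 2 + B * t + C = 0) :
    IsConstructible t := by
  have h1 : (2 * A * t + B) ^ 2 = B ^ 2 - 2 ^ 2 * A * C := by linear_combination 4 * A * h
  have h2 : IsConstructible (2 * A * t + B) := by
    refine sqrt ?_
    rw [h1]
    exact (hB.pow 2).sub (((two.pow 2).mul hA).mul hC)
  have h3 : t = (2 * A * t + B - B) / (2 * A) := by field_simp; ring
  rw [h3]
  exact (h2.sub hB).div (two.mul hA)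

/-- Linear equations. -/
theorem of_linear {A C t : F} (hA : IsConstructible A) (hC : IsConstructible C) (hA0 : A ≠ 0)
    (h : A * t = C) : IsConstructible t := by
  have h3 : t = C / A := by field_simp; linear_combination h
  rw [h3]
  exact hC.div hA

end IsConstructible

/-! ### Towers of quadratic extensions -/

variable {F : Type*} [Field F] [CharZero F]

/-- The fields which are obtained from `ℚ` by successive adjunction of square roots. -/
inductive Tower : IntermediateField ℚ F → Prop
  | bot : Tower ⊥
  | step {K : IntermediateField ℚ F} {b : F} : Tower K → b ^ 2 ∈ K → Tower (K ⊔ ℚ⟮b⟯)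

theorem Tower.sup {K L : IntermediateField ℚ F} (hK : Tower K) (hL : Tower L) : Tower (K ⊔ L) := by
  induction hL with
  | bot => rwa [sup_bot_eq]
  | step _ hb ih =>
    rw [← sup_assoc]
    exact ih.step ((le_sup_right : _ ≤ K ⊔ _) hb)

/-- Every constructible number lies in a tower of quadratic extensions. -/
theorem IsConstructible.exists_tower {z : F} (h : IsConstructible z) :
    ∃ K : IntermediateField ℚ F, Tower K ∧ z ∈ K := by
  induction h with
  | zero => exact ⟨⊥, .bot, zero_mem _⟩
  | one => exact ⟨⊥, .bot, one_mem _⟩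
  | add _ _ h1 h2 =>
    obtain ⟨K, hK, h1⟩ := h1
    obtain ⟨L, hL, h2⟩ := h2
    exact ⟨K ⊔ L, hK.sup hL, add_mem ((le_sup_left : K ≤ K ⊔ L) h1) ((le_sup_right : L ≤ K ⊔ L) h2)⟩
  | neg _ h1 =>
    obtain ⟨K, hK, h1⟩ := h1
    exact ⟨K, hK, neg_mem h1⟩
  | mul _ _ h1 h2 =>
    obtain ⟨K, hK, h1⟩ := h1
    obtain ⟨L, hL, h2⟩ := h2
    exact ⟨K ⊔ L, hK.sup hL, mul_mem ((le_sup_left : K ≤ K ⊔ L) h1) ((le_sup_right : L ≤ K ⊔ L) h2)⟩
  | inv _ h1 =>
    obtain ⟨K, hK, h1⟩ := h1
    exact ⟨K, hK, inv_mem h1⟩
  | @sqrt a _ h1 =>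
    obtain ⟨K, hK, h1⟩ := h1
    exact ⟨K ⊔ ℚ⟮a⟯, hK.step h1, (le_sup_right : ℚ⟮a⟯ ≤ K ⊔ ℚ⟮a⟯) (mem_adjoin_simple_self ℚ a)⟩

/-- The degree of `K(b) / K` is `1` or `2` if `b ^ 2 ∈ K`. -/
theorem finrank_adjoin_sqrt (K : IntermediateField ℚ F) {b : F} (hb : b ^ 2 ∈ K) :
    FiniteDimensional K K⟮b⟯ ∧ (Module.finrank K K⟮b⟯ = 1 ∨ Module.finrank K K⟮b⟯ = 2) := by
  have hint : IsIntegral K b := by
    refine ⟨Polynomial.X ^ 2 - Polynomial.C ⟨b ^ 2, hb⟩,
      Polynomial.monic_X_pow_sub_C _ two_ne_zero, ?_⟩
    simp
  have hfin : FiniteDimensional K K⟮b⟯ := adjoin.finiteDimensional hint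
  refine ⟨hfin, ?_⟩
  rw [adjoin.finrank hint]
  have h1 : minpoly K b ∣ Polynomial.X ^ 2 - Polynomial.C ⟨b ^ 2, hb⟩ := by
    apply minpoly.dvd
    simp
  have h2 := Polynomial.natDegree_le_of_dvd h1 (Polynomial.monic_X_pow_sub_C _ two_ne_zero).ne_zero
  rw [Polynomial.natDegree_X_pow_sub_C] at h2
  have h3 := minpoly.natDegree_pos hint
  omega

/-- **The degree of a tower of quadratic extensions is a power of `2`.** -/
theorem Tower.finrank {K : IntermediateField ℚ F} (hK : Tower K) :
    FiniteDimensional ℚ K ∧ ∃ k, Module.finrank ℚ K = 2 ^ k := by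
  induction hK with
  | bot => exact ⟨inferInstance, 0, by rw [IntermediateField.finrank_bot, pow_zero]⟩
  | @step K b _ hb ih =>
    obtain ⟨ih1, k, ih2⟩ := ih
    obtain ⟨h1, h2⟩ := finrank_adjoin_sqrt K hb
    have e : K ⊔ ℚ⟮b⟯ = K⟮b⟯.restrictScalars ℚ := (restrictScalars_adjoin_eq_sup ℚ K {b}).symm
    rw [e]
    have h3 : FiniteDimensional ℚ K⟮b⟯ := FiniteDimensional.trans ℚ K K⟮b⟯
    have h4 : Module.finrank ℚ K * Module.finrank K K⟮b⟯ = Module.finrank ℚ K⟮b⟯ :=
      Module.finrank_mul_finrank ℚ K K⟮b⟯
    refine ⟨h3, ?_⟩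
    change ∃ k, Module.finrank ℚ K⟮b⟯ = 2 ^ k
    rw [← h4, ih2]
    rcases h2 with h2 | h2
    · exact ⟨k, by rw [h2, mul_one]⟩
    · exact ⟨k + 1, by rw [h2, pow_succ]⟩

/-- **Wantzel 1837**: a constructible number is algebraic and its degree is a power of `2`. -/
theorem finrank_of_isConstructible {z : F} (h : IsConstructible z) :
    IsIntegral ℚ z ∧ ∃ k, Module.finrank ℚ ℚ⟮z⟯ = 2 ^ k := by
  obtain ⟨K, hK, hz⟩ := h.exists_tower
  obtain ⟨h1, k, h2⟩ := hK.finrank
  have hle : ℚ⟮z⟯ ≤ K := adjoin_simple_le_iff.2 hz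
  have hint : IsIntegral ℚ z := by
    have := Algebra.IsIntegral.isIntegral (R := ℚ) (⟨z, hz⟩ : K)
    exact (isIntegral_algHom_iff K.val Subtype.val_injective).2 this
  refine ⟨hint, ?_⟩
  have h3 : Module.finrank ℚ ℚ⟮z⟯ ∣ 2 ^ k := by
    rw [← h2]
    exact IntermediateField.finrank_dvd_of_le_right hle
  obtain ⟨j, -, hj⟩ := (Nat.dvd_prime_pow Nat.prime_two).1 h3
  exact ⟨j, hj⟩

theorem natDegree_minpoly_of_isConstructible {z : F} (h : IsConstructible z) :
    ∃ k, (minpoly ℚ z).natDegree = 2 ^ k := by
  obtain ⟨h1, k, h2⟩ := finrank_of_isConstructible h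
  exact ⟨k, by rw [← h2, adjoin.finrank h1]⟩

/-! ### Galois extensions with a `2`-group -/

/-- The elements fixed by a subgroup of a finite `2`-group of automorphisms are constructible. -/
theorem isConstructible_of_fixed {N : Type*} [Field N] [CharZero N] {G : Type*} [Group G] [Finite G]
    [MulSemiringAction G N] (hG : IsPGroup 2 G)
    (hbot : ∀ x : N, (∀ g : G, g • x = x) → IsConstructible x) (H : Subgroup G) :
    ∀ x : N, (∀ g ∈ H, g • x = x) → IsConstructible x := by
  obtain ⟨m, hm⟩ := IsPGroup.iff_card.1 hG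
  have key : ∀ j, j ≤ m → ∀ H : Subgroup G, Nat.card H = 2 ^ (m - j) →
      ∀ x : N, (∀ g ∈ H, g • x = x) → IsConstructible x := by
    intro j
    induction j with
    | zero =>
      intro _ H hH x hx
      have hH' : H = ⊤ := Subgroup.eq_top_of_card_eq H (by rw [hH, hm, Nat.sub_zero])
      exact hbot x fun g => hx g (by rw [hH']; trivial)
    | succ j ih =>
      intro hj H hH x hx
      have : Fact (Nat.Prime 2) := ⟨Nat.prime_two⟩
      obtain ⟨H', hH', hle⟩ := Sylow.exists_subgroup_card_pow_succ (p := 2) (n := m - (j + 1))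
        (by rw [hm]; exact pow_dvd_pow 2 (by omega)) hH
      rw [show m - (j + 1) + 1 = m - j by omega] at hH'
      -- an element `s` of `H'` outside `H`
      obtain ⟨s, hs, hsH⟩ : ∃ s ∈ H', s ∉ H := by
        by_contra hc
        push Not at hc
        have h1 : H = H' := le_antisymm hle hc
        rw [h1, hH'] at hH
        have h2 := Nat.pow_right_injective le_rfl hH
        omega
      have hindex : (H.subgroupOf H').index = 2 := by
        have h1 := (H.subgroupOf H').card_mul_index
        have h2 : Nat.card (H.subgroupOf H') = Nat.card H :=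
          Nat.card_congr (Subgroup.subgroupOfEquivOfLe hle).toEquiv
        rw [h2, hH, hH', show m - j = m - (j + 1) + 1 by omega, pow_succ] at h1
        exact Nat.eq_of_mul_eq_mul_left (by positivity) h1
      have hmul : ∀ a ∈ H', ∀ b ∈ H', (a * b ∈ H ↔ (a ∈ H ↔ b ∈ H)) := by
        intro a ha b hb
        have := Subgroup.mul_mem_iff_of_index_two hindex (a := ⟨a, ha⟩) (b := ⟨b, hb⟩)
        simpa [Subgroup.mem_subgroupOf] using this
      have hsi : s⁻¹ ∉ H := fun h => hsH (by simpa using H.inv_mem h)
      have hconj : ∀ g ∈ H, s⁻¹ * g * s ∈ H := by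
        intro g hg
        have h1 : s⁻¹ * g ∉ H := by
          rw [hmul _ (H'.inv_mem hs) _ (hle hg)]
          tauto
        rw [hmul _ (H'.mul_mem (H'.inv_mem hs) (hle hg)) _ hs]
        tauto
      have hs2 : s * s ∈ H := by
        rw [hmul _ hs _ hs]
      have hsx : ∀ g ∈ H, g • s • x = s • x := by
        intro g hg
        have h1 := hx _ (hconj g hg)
        calc g • s • x = s • (s⁻¹ * g * s) • x := by
              rw [← mul_smul, ← mul_smul]
              congr 1
              group
          _ = s • x := by rw [h1]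
      have hssx : s • s • x = x := by
        rw [← mul_smul]
        exact hx _ hs2
      -- the elements of `H'`
      have hcase : ∀ g ∈ H', g ∈ H ∨ ∃ g' ∈ H, g = g' * s := by
        intro g hg
        by_cases h1 : g ∈ H
        · exact Or.inl h1
        · refine Or.inr ⟨g * s⁻¹, ?_, by group⟩
          rw [hmul _ hg _ (H'.inv_mem hs)]
          tauto
      have hsum : IsConstructible (x + s • x) := by
        refine ih (by omega) H' hH' _ fun g hg => ?_
        rcases hcase g hg with h1 | ⟨g', h1, rfl⟩
        · rw [smul_add, hx g h1, hsx g h1]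
        · rw [mul_smul, smul_add, smul_add, hssx, hx g' h1, hsx g' h1, add_comm]
      have hprod : IsConstructible (x * s • x) := by
        refine ih (by omega) H' hH' _ fun g hg => ?_
        rcases hcase g hg with h1 | ⟨g', h1, rfl⟩
        · rw [smul_mul', hx g h1, hsx g h1]
        · rw [mul_smul, smul_mul', smul_mul', hssx, hx g' h1, hsx g' h1, mul_comm]
      exact IsConstructible.of_quadratic (A := 1) (B := -(x + s • x)) (C := x * s • x)
        .one hsum.neg hprod one_ne_zero (by ring)
  obtain ⟨i, hi, hcard⟩ := (Nat.dvd_prime_pow Nat.prime_two).1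
    (show Nat.card H ∣ 2 ^ m by rw [← hm]; exact H.card_subgroup_dvd_card)
  exact key (m - i) (Nat.sub_le _ _) H (by rw [hcard]; congr 1; omega)

/-- **The elements of a finite Galois extension of `ℚ` whose Galois group is a `2`-group are
constructible.** -/
theorem isConstructible_of_isPGroup (N : Type*) [Field N] [CharZero N] [Algebra ℚ N]
    [FiniteDimensional ℚ N] [IsGalois ℚ N] (h : IsPGroup 2 (N ≃ₐ[ℚ] N)) (x : N) :
    IsConstructible x := by
  refine isConstructible_of_fixed h (fun y hy => ?_) ⊥ x (by simp)
  obtain ⟨q, rfl⟩ := (IsGalois.mem_bot_iff_fixed y).2 hy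
  rw [eq_ratCast]
  exact .ratCast q

end Fermat.Agent.Cor.Construct
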