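import Fermat.Agent.Corollaries.Construct.Points
import Mathlib.FieldTheory.AlgebraicClosure
import Mathlib.FieldTheory.PolynomialGaloisGroup
import Mathlib.FieldTheory.Normal.Basic
import Mathlib.Analysis.Complex.Polynomial.Basic

/-!
# Constructible numbers and Galois groups (helper56)

`isConstructible_iff_gal`: a complex number is constructible with ruler and compass if and only if it
is algebraic and the Galois group of its minimal polynomial over `ℚ` is a `2`-group.
-/

set_option autoImplicit false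

open IntermediateField Polynomial

namespace Fermat.Agent.Cor.Construct

/-- A constructible complex number is constructible in the field of algebraic numbers. -/
theorem IsConstructible.exists_algebraic {z : ℂ} (h : IsConstructible z) :
    ∃ a : algebraicClosure ℚ ℂ, (a : ℂ) = z ∧ IsConstructible a := by
  induction h with
  | zero => exact ⟨0, rfl, .zero⟩
  | one => exact ⟨1, rfl, .one⟩
  | add _ _ h1 h2 =>
    obtain ⟨a, rfl, ha⟩ := h1
    obtain ⟨b, rfl, hb⟩ := h2
    exact ⟨a + b, rfl, ha.add hb⟩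
  | neg _ h1 =>
    obtain ⟨a, rfl, ha⟩ := h1
    exact ⟨-a, rfl, ha.neg⟩
  | mul _ _ h1 h2 =>
    obtain ⟨a, rfl, ha⟩ := h1
    obtain ⟨b, rfl, hb⟩ := h2
    exact ⟨a * b, rfl, ha.mul hb⟩
  | inv _ h1 =>
    obtain ⟨a, rfl, ha⟩ := h1
    exact ⟨a⁻¹, rfl, ha.inv⟩
  | @sqrt c _ h1 =>
    obtain ⟨a, ha, hc⟩ := h1
    have h2 : IsIntegral ℚ (c ^ 2) := by
      rw [← ha]
      exact (mem_algebraicClosure_iff.1 a.2).isIntegral
    have h3 : IsIntegral ℚ c := h2.of_pow two_pos
    refine ⟨⟨c, mem_algebraicClosure_iff.2 h3.isAlgebraic⟩, rfl, .sqrt ?_⟩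
    have h4 : (⟨c, mem_algebraicClosure_iff.2 h3.isAlgebraic⟩ : algebraicClosure ℚ ℂ) ^ 2 = a :=
      Subtype.ext ha.symm
    rw [h4]
    exact hc

/-- The conjugates of a constructible number are constructible. -/
theorem IsConstructible.of_root {z w : ℂ} (h : IsConstructible z) (hw : aeval w (minpoly ℚ z) = 0) :
    IsConstructible w := by
  have hz := (finrank_of_isConstructible h).1
  obtain ⟨a, rfl, ha⟩ := h.exists_algebraic
  have hwa : IsAlgebraic ℚ w := ⟨minpoly ℚ (a : ℂ), minpoly.ne_zero hz, hw⟩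
  set b : algebraicClosure ℚ ℂ := ⟨w, mem_algebraicClosure_iff.2 hwa⟩ with hb
  have : IsAlgClosure ℚ (algebraicClosure ℚ ℂ) := algebraicClosure.isAlgClosure ℚ ℂ
  have : Normal ℚ (algebraicClosure ℚ ℂ) := IsAlgClosure.normal ℚ _
  have h1 : minpoly ℚ (a : ℂ) = minpoly ℚ a :=
    minpoly.algHom_eq (algebraicClosure ℚ ℂ).val Subtype.val_injective a
  have h2 : aeval b (minpoly ℚ a) = 0 := by
    apply Subtype.ext
    rw [h1] at hw
    have h3 := Polynomial.aeval_algHom_apply (algebraicClosure ℚ ℂ).val b (minpoly ℚ a)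
    change ((algebraicClosure ℚ ℂ).val) (aeval b (minpoly ℚ a)) = _
    rw [← h3]
    exact hw
  obtain ⟨σ, hσ⟩ := minpoly.exists_algEquiv_of_root' (mem_algebraicClosure_iff.1 a.2 |> fun h => by
    exact (isAlgebraic_algebraMap_iff (R := ℚ) (S := algebraicClosure ℚ ℂ) (A := ℂ)
      Subtype.val_injective).1 h) h2
  have h4 : IsConstructible b := by
    rw [← hσ]
    exact ha.map (σ : algebraicClosure ℚ ℂ →+* algebraicClosure ℚ ℂ)
  exact h4.map ((algebraicClosure ℚ ℂ).val : algebraicClosure ℚ ℂ →+* ℂ)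

/-- A finite set of constructible numbers lies in a tower of quadratic extensions. -/
theorem exists_tower_of_finite {S : Set ℂ} (hS : S.Finite) (h : ∀ z ∈ S, IsConstructible z) :
    ∃ K : IntermediateField ℚ ℂ, Tower K ∧ S ⊆ K := by
  induction S, hS using Set.Finite.induction_on with
  | empty => exact ⟨⊥, .bot, Set.empty_subset _⟩
  | @insert z S _ _ ih =>
    obtain ⟨K, hK, h1⟩ := ih fun w hw => h w (Set.mem_insert_of_mem _ hw)
    obtain ⟨L, hL, h2⟩ := (h z (Set.mem_insert _ _)).exists_tower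
    refine ⟨K ⊔ L, hK.sup hL, ?_⟩
    rintro w (rfl | hw)
    · exact (le_sup_right : L ≤ K ⊔ L) h2
    · exact (le_sup_left : K ≤ K ⊔ L) (h1 hw)

/-- **A complex number `z` is constructible if and only if it is algebraic and the Galois group of
its minimal polynomial over `ℚ` is a `2`-group.** -/
theorem isConstructible_iff_gal {z : ℂ} :
    IsConstructible z ↔ IsIntegral ℚ z ∧ IsPGroup 2 (minpoly ℚ z).Gal := by
  constructor
  · intro h
    have hz := (finrank_of_isConstructible h).1
    refine ⟨hz, ?_⟩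
    have hsep : (minpoly ℚ z).Separable := (minpoly.irreducible hz).separable
    have hsplit : ((minpoly ℚ z).map (algebraMap ℚ ℂ)).Splits := IsAlgClosed.splits _
    have hfin : ((minpoly ℚ z).rootSet ℂ).Finite := rootSet_finite _ _
    obtain ⟨K, hK, hS⟩ := exists_tower_of_finite hfin fun w hw => h.of_root (by
      rw [mem_rootSet] at hw
      exact hw.2)
    obtain ⟨hKfin, k, hk⟩ := hK.finrank
    have hle : adjoin ℚ ((minpoly ℚ z).rootSet ℂ) ≤ K := adjoin_le_iff.2 hS
    have : (minpoly ℚ z).IsSplittingField ℚ (adjoin ℚ ((minpoly ℚ z).rootSet ℂ)) :=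
      adjoin_rootSet_isSplittingField hsplit
    have e := Polynomial.IsSplittingField.algEquiv (adjoin ℚ ((minpoly ℚ z).rootSet ℂ))
      (minpoly ℚ z)
    have h3 : Module.finrank ℚ (adjoin ℚ ((minpoly ℚ z).rootSet ℂ)) ∣ 2 ^ k := by
      rw [← hk]
      exact IntermediateField.finrank_dvd_of_le_right hle
    obtain ⟨j, -, hj⟩ := (Nat.dvd_prime_pow Nat.prime_two).1 h3
    refine IsPGroup.of_card (n := j) ?_
    rw [Polynomial.Gal.card_of_separable hsep, ← hj]
    exact e.toLinearEquiv.finrank_eq.symm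
  · rintro ⟨hz, hG⟩
    have hsep : (minpoly ℚ z).Separable := (minpoly.irreducible hz).separable
    have hsplit : ((minpoly ℚ z).map (algebraMap ℚ ℂ)).Splits := IsAlgClosed.splits _
    have hsf : (minpoly ℚ z).IsSplittingField ℚ (adjoin ℚ ((minpoly ℚ z).rootSet ℂ)) :=
      adjoin_rootSet_isSplittingField hsplit
    have e := Polynomial.IsSplittingField.algEquiv (adjoin ℚ ((minpoly ℚ z).rootSet ℂ))
      (minpoly ℚ z)
    have hfd : FiniteDimensional ℚ (adjoin ℚ ((minpoly ℚ z).rootSet ℂ)) :=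
      Polynomial.IsSplittingField.finiteDimensional _ (minpoly ℚ z)
    have hgal : IsGalois ℚ (adjoin ℚ ((minpoly ℚ z).rootSet ℂ)) :=
      IsGalois.of_separable_splitting_field hsep
    obtain ⟨n, hn⟩ := IsPGroup.iff_card.1 hG
    rw [Polynomial.Gal.card_of_separable hsep, ← e.toLinearEquiv.finrank_eq] at hn
    have hG' : IsPGroup 2 (adjoin ℚ ((minpoly ℚ z).rootSet ℂ) ≃ₐ[ℚ]
        adjoin ℚ ((minpoly ℚ z).rootSet ℂ)) :=
      IsPGroup.of_card (n := n) (by rw [IsGalois.card_aut_eq_finrank, hn])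
    have hmem : z ∈ adjoin ℚ ((minpoly ℚ z).rootSet ℂ) := by
      apply subset_adjoin
      rw [mem_rootSet]
      exact ⟨minpoly.ne_zero hz, minpoly.aeval ℚ z⟩
    have h1 := isConstructible_of_isPGroup (adjoin ℚ ((minpoly ℚ z).rootSet ℂ)) hG' ⟨z, hmem⟩
    exact h1.map ((adjoin ℚ ((minpoly ℚ z).rootSet ℂ)).val :
      adjoin ℚ ((minpoly ℚ z).rootSet ℂ) →+* ℂ)

/-- **The points which can be constructed with ruler and compass**: `z` is algebraic and the Galois
group of its minimal polynomial is a `2`-group. -/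
theorem point_iff_gal {z : ℂ} : Point z ↔ IsIntegral ℚ z ∧ IsPGroup 2 (minpoly ℚ z).Gal := by
  rw [point_iff_isConstructible, isConstructible_iff_gal]

end Fermat.Agent.Cor.Construct
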