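import Fermat.Agent.Corollaries.Construct.Basic

/-!
# Constructions with ruler and compass: geometry (helper56)

`Point z`: the point `z` of the plane `ℂ` is obtained from the points `0` and `1` by finitely many
intersections of lines through two points, and circles whose centre is a point and whose radius is
the distance of two points. `point_iff_isConstructible`: this is the same as `IsConstructible z`.
-/

set_option autoImplicit false

open Complex ComplexConjugate

namespace Fermat.Agent.Cor.Construct

/-- `z` lies on the line through `a` and `b`. -/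
def OnLine (z a b : ℂ) : Prop := ∃ t : ℝ, z = a + t * (b - a)

/-- `z` lies on the circle with centre `c` and radius the distance of `d` and `e`. -/
def OnCircle (z c d e : ℂ) : Prop := ‖z - c‖ = ‖d - e‖

/-- The points which can be constructed with ruler and compass from `0` and `1`. -/
inductive Point : ℂ → Prop
  | zero : Point 0
  | one : Point 1
  /-- the intersection of two lines which are not parallel -/
  | line_line {a b c d z : ℂ} : Point a → Point b → Point c → Point d → a ≠ b →
      ((b - a) * conj (d - c)).im ≠ 0 → OnLine z a b → OnLine z c d → Point z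
  /-- a common point of a line and a circle -/
  | line_circle {a b c d e z : ℂ} : Point a → Point b → Point c → Point d → Point e → a ≠ b →
      OnLine z a b → OnCircle z c d e → Point z
  /-- a common point of two circles with different centres -/
  | circle_circle {c d e c' d' e' z : ℂ} : Point c → Point d → Point e → Point c' → Point d' →
      Point e' → c ≠ c' → OnCircle z c d e → OnCircle z c' d' e' → Point z

/-! ### Points are constructible numbers -/

theorem IsConstructible.conj {z : ℂ} (h : IsConstructible z) : IsConstructible (conj z) :=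
  h.map (starRingEnd ℂ)

theorem normSq_eq (z : ℂ) : ((‖z‖ : ℝ) : ℂ) ^ 2 = z * conj z := by
  rw [Complex.mul_conj, Complex.normSq_eq_norm_sq]
  push_cast
  rfl

theorem onCircle_iff {z c d e : ℂ} (h : OnCircle z c d e) :
    (z - c) * conj (z - c) = (d - e) * conj (d - e) := by
  rw [← normSq_eq, ← normSq_eq, h]

theorem Point.isConstructible {z : ℂ} (h : Point z) : IsConstructible z := by
  induction h with
  | zero => exact .zero
  | one => exact .one
  | @line_line a b c d z _ _ _ _ _ him h1 h2 ha hb hc hd =>
    obtain ⟨t, rfl⟩ := h1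
    obtain ⟨s, hs⟩ := h2
    have hD : (b - a) * conj (d - c) - conj (b - a) * (d - c) ≠ 0 := by
      intro h
      apply him
      have h1 : (b - a) * conj (d - c) = conj ((b - a) * conj (d - c)) := by
        rw [map_mul, Complex.conj_conj]
        linear_combination h
      exact Complex.conj_eq_iff_im.1 h1.symm
    have ht : IsConstructible (t : ℂ) := by
      refine IsConstructible.of_linear
        (A := (b - a) * conj (d - c) - conj (b - a) * (d - c))
        (C := (c - a) * conj (d - c) - conj (c - a) * (d - c)) ?_ ?_ hD ?_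
      · exact ((hb.sub ha).mul (hd.sub hc).conj).sub ((hb.sub ha).conj.mul (hd.sub hc))
      · exact ((hc.sub ha).mul (hd.sub hc).conj).sub ((hc.sub ha).conj.mul (hd.sub hc))
      · have h1 : (t : ℂ) * (b - a) = (c - a) + s * (d - c) := by linear_combination hs
        have h2 : (t : ℂ) * conj (b - a) = conj (c - a) + s * conj (d - c) := by
          have := congrArg conj h1
          simpa only [map_mul, map_add, Complex.conj_ofReal] using this
        linear_combination conj (d - c) * h1 - (d - c) * h2
    exact ha.add (ht.mul (hb.sub ha))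
  | @line_circle a b c d e z _ _ _ _ _ hab h1 h2 ha hb hc hd he =>
    obtain ⟨t, rfl⟩ := h1
    have h3 := onCircle_iff h2
    have ht : IsConstructible (t : ℂ) := by
      refine IsConstructible.of_quadratic (A := (b - a) * conj (b - a))
        (B := (a - c) * conj (b - a) + conj (a - c) * (b - a))
        (C := (a - c) * conj (a - c) - (d - e) * conj (d - e)) ?_ ?_ ?_ ?_ ?_
      · exact (hb.sub ha).mul (hb.sub ha).conj
      · exact ((ha.sub hc).mul (hb.sub ha).conj).add ((ha.sub hc).conj.mul (hb.sub ha))
      · exact ((ha.sub hc).mul (ha.sub hc).conj).sub ((hd.sub he).mul (hd.sub he).conj)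
      · have h4 : b - a ≠ 0 := sub_ne_zero.2 hab.symm
        exact mul_ne_zero h4 ((map_ne_zero _).2 h4)
      · have h5 : a + (t : ℂ) * (b - a) - c = (a - c) + t * (b - a) := by ring
        rw [h5, map_add, map_mul, Complex.conj_ofReal] at h3
        linear_combination h3
    exact ha.add (ht.mul (hb.sub ha))
  | @circle_circle c d e c' d' e' z _ _ _ _ _ _ hcc h1 h2 hc hd he hc' hd' he' =>
    have h3 := onCircle_iff h1
    have h4 := onCircle_iff h2
    have hδ : c' - c ≠ 0 := sub_ne_zero.2 hcc.symm
    have hδ' : conj (c' - c) ≠ 0 := (map_ne_zero _).2 hδ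
    rw [map_sub] at h3 h4
    refine IsConstructible.of_quadratic (A := conj (c' - c))
      (B := -(((d - e) * conj (d - e) - (d' - e') * conj (d' - e') - c * conj c + c' * conj c') -
        conj c * (c' - c)) - c * conj (c' - c))
      (C := c * (((d - e) * conj (d - e) - (d' - e') * conj (d' - e') - c * conj c +
        c' * conj c') - conj c * (c' - c)) + (d - e) * conj (d - e) * (c' - c)) ?_ ?_ ?_ hδ' ?_
    · exact (hc'.sub hc).conj
    · exact (((((((hd.sub he).mul (hd.sub he).conj).sub ((hd'.sub he').mul (hd'.sub he').conj)).sub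
        (hc.mul hc.conj)).add (hc'.mul hc'.conj)).sub (hc.conj.mul (hc'.sub hc))).neg).sub
        (hc.mul (hc'.sub hc).conj)
    · exact (hc.mul (((((hd.sub he).mul (hd.sub he).conj).sub
        ((hd'.sub he').mul (hd'.sub he').conj)).sub (hc.mul hc.conj)).add
        (hc'.mul hc'.conj) |>.sub (hc.conj.mul (hc'.sub hc)))).add
        (((hd.sub he).mul (hd.sub he).conj).mul (hc'.sub hc))
    · simp only [map_sub] at *
      linear_combination (-(c' - c) + (z - c)) * h3 - (z - c) * h4

/-! ### Constructions -/

namespace Point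

theorem neg {z : ℂ} (hz : Point z) : Point (-z) := by
  rcases eq_or_ne z 0 with rfl | h0
  · rwa [neg_zero]
  · exact line_circle (a := 0) (b := z) (c := 0) (d := z) (e := 0) .zero hz .zero hz .zero h0.symm
      ⟨-1, by push_cast; ring⟩ (by simp [OnCircle])

theorem double {z : ℂ} (hz : Point z) : Point (z + z) := by
  rcases eq_or_ne z 0 with rfl | h0
  · rwa [add_zero]
  · exact line_circle (a := 0) (b := z) (c := z) (d := z) (e := 0) .zero hz hz hz .zero h0.symm
      ⟨2, by push_cast; ring⟩ (by simp [OnCircle])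

theorem add {z w : ℂ} (hz : Point z) (hw : Point w) : Point (z + w) := by
  rcases eq_or_ne z w with rfl | h
  · exact hz.double
  · exact circle_circle (c := z) (d := w) (e := 0) (c' := w) (d' := z) (e' := 0) hz hw .zero hw hz
      .zero h (by simp [OnCircle]) (by simp [OnCircle])

theorem sub {z w : ℂ} (hz : Point z) (hw : Point w) : Point (z - w) := by
  rw [sub_eq_add_neg]
  exact hz.add hw.neg

/-- Reflection in the real axis. -/
theorem reflect {z : ℂ} (hz : Point z) : Point (conj z) := by
  refine circle_circle (c := 0) (d := z) (e := 0) (c' := 1) (d' := z) (e' := 1) .zero hz .zero .one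
    hz .one zero_ne_one ?_ ?_
  · simp [OnCircle]
  · have h : (starRingEnd ℂ) z - 1 = (starRingEnd ℂ) (z - 1) := by rw [map_sub, map_one]
    rw [OnCircle, h, Complex.norm_conj]

/-- The vertex of the equilateral triangle over `0` and `1`. -/
noncomputable def omega : ℂ := ⟨1 / 2, √3 / 2⟩

theorem norm_omega : ‖omega‖ = 1 := by
  have h : ‖omega‖ ^ 2 = 1 := by
    rw [← Complex.normSq_eq_norm_sq, Complex.normSq_apply, omega]
    have h3 : √3 * √3 = 3 := Real.mul_self_sqrt (by norm_num)
    simp only
    linear_combination h3 / 4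
  have h0 := norm_nonneg omega
  nlinarith

theorem omega_sub_one : omega - 1 = -conj omega := by
  apply Complex.ext
  · simp [omega]; norm_num
  · simp [omega]

theorem omega_add_conj : omega + conj omega = 1 := by
  apply Complex.ext
  · simp [omega]; norm_num
  · simp [omega]

theorem norm_omega_sub_one : ‖omega - 1‖ = 1 := by
  rw [omega_sub_one, norm_neg, Complex.norm_conj, norm_omega]

theorem mul_omega {z : ℂ} (hz : Point z) : Point (z * omega) := by
  rcases eq_or_ne z 0 with rfl | h0
  · rwa [zero_mul]
  · refine circle_circle (c := 0) (d := z) (e := 0) (c' := z) (d' := z) (e' := 0) .zero hz .zero hz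
      hz .zero h0.symm ?_ ?_
    · rw [OnCircle, sub_zero, sub_zero, norm_mul, norm_omega, mul_one]
    · have h : z * omega - z = z * (omega - 1) := by ring
      rw [OnCircle, h, sub_zero, norm_mul, norm_omega_sub_one, mul_one]

theorem mul_conj_omega {z : ℂ} (hz : Point z) : Point (z * conj omega) := by
  have h : z * conj omega = z - z * omega := by
    linear_combination z * omega_add_conj
  rw [h]
  exact hz.sub hz.mul_omega

/-- The middle of `0` and `z`. -/
theorem half {z : ℂ} (hz : Point z) : Point (z / 2) := by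
  rcases eq_or_ne z 0 with rfl | h0
  · rwa [zero_div]
  · refine line_line (a := 0) (b := z) (c := z * omega) (d := z * conj omega) .zero hz hz.mul_omega
      hz.mul_conj_omega h0.symm ?_ ⟨1 / 2, by push_cast; ring⟩ ⟨1 / 2, ?_⟩
    · have h : (z - 0) * conj (z * conj omega - z * omega) =
          ((Complex.normSq z * √3 : ℝ) : ℂ) * I := by
        have h1 : conj (z * conj omega - z * omega) = conj z * ((√3 : ℝ) * I) := by
          rw [map_sub, map_mul, map_mul, Complex.conj_conj, ← mul_sub]
          congr 1
          apply Complex.ext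
          · simp [omega]
          · simp [omega]
        rw [h1, sub_zero, ← mul_assoc, Complex.mul_conj]
        push_cast
        ring
      rw [h, Complex.mul_I_im, Complex.ofReal_re]
      exact mul_ne_zero (Complex.normSq_pos.2 h0).ne' (by positivity)
    · push_cast
      linear_combination (-z / 2) * omega_add_conj

/-- The point `i`. -/
theorem I_mem : Point I := by
  have h1 : Point (((√3 : ℝ) : ℂ) * I) := by
    have h := (Point.one.mul_omega).sub (Point.one.mul_conj_omega)
    have e : 1 * omega - 1 * conj omega = ((√3 : ℝ) : ℂ) * I := by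
      apply Complex.ext
      · simp [omega]
      · simp [omega]
    rwa [e] at h
  have h3 : ((√3 : ℝ) : ℂ) ≠ 0 := by
    rw [Ne, Complex.ofReal_eq_zero]
    positivity
  refine line_circle (a := 0) (b := ((√3 : ℝ) : ℂ) * I) (c := 0) (d := 1) (e := 0) .zero h1 .zero
    .one .zero (mul_ne_zero h3 I_ne_zero).symm ⟨(√3)⁻¹, ?_⟩ (by simp [OnCircle])
  push_cast
  field_simp
  ring

theorem re {z : ℂ} (hz : Point z) : Point (z.re : ℂ) := by
  have h := (hz.add hz.reflect).half
  rwa [Complex.add_conj, Complex.ofReal_mul, Complex.ofReal_ofNat,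
    mul_div_cancel_left₀ _ (two_ne_zero' ℂ)] at h

theorem ofReal_mul_I {r : ℝ} (h : Point (r : ℂ)) : Point ((r : ℂ) * I) :=
  line_circle (a := 0) (b := I) (c := 0) (d := r) (e := 0) .zero I_mem .zero h .zero
    I_ne_zero.symm ⟨r, by ring⟩ (by simp [OnCircle])

theorem of_ofReal_mul_I {r : ℝ} (h : Point ((r : ℂ) * I)) : Point (r : ℂ) :=
  line_circle (a := 0) (b := 1) (c := 0) (d := (r : ℂ) * I) (e := 0) .zero .one .zero h .zero
    zero_ne_one ⟨r, by ring⟩ (by simp [OnCircle])

theorem im {z : ℂ} (hz : Point z) : Point (z.im : ℂ) := by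
  have h := hz.sub hz.re
  have e : z - (z.re : ℂ) = (z.im : ℂ) * I := by
    linear_combination -(Complex.re_add_im z)
  rw [e] at h
  exact h.of_ofReal_mul_I

theorem of_re_im {z : ℂ} (h1 : Point (z.re : ℂ)) (h2 : Point (z.im : ℂ)) : Point z := by
  have h := h1.add h2.ofReal_mul_I
  rwa [Complex.re_add_im] at h

theorem real_mul {r s : ℝ} (hr : Point (r : ℂ)) (hs : Point (s : ℂ)) : Point ((r * s : ℝ) : ℂ) := by
  have h1 : Point ((s : ℂ) * I + (r - I)) := hs.ofReal_mul_I.add (hr.sub I_mem)
  refine line_line (a := 0) (b := 1) (c := (s : ℂ) * I) (d := (s : ℂ) * I + (r - I)) .zero .one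
    hs.ofReal_mul_I h1 zero_ne_one ?_ ⟨r * s, by ring⟩ ⟨s, ?_⟩
  · have h : ((1 : ℂ) - 0) * conj ((s : ℂ) * I + (r - I) - (s : ℂ) * I) = r + I := by
      simp
    rw [h]
    simp
  · push_cast
    ring

theorem real_inv {r : ℝ} (hr : Point (r : ℂ)) : Point ((r⁻¹ : ℝ) : ℂ) := by
  rcases eq_or_ne r 0 with rfl | h0
  · simpa using hr
  have h1 : Point (I + (1 - (r : ℂ) * I)) := I_mem.add (Point.one.sub hr.ofReal_mul_I)
  refine line_line (a := 0) (b := 1) (c := I) (d := I + (1 - (r : ℂ) * I)) .zero .one
    I_mem h1 zero_ne_one ?_ ⟨r⁻¹, by ring⟩ ⟨r⁻¹, ?_⟩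
  · have h : ((1 : ℂ) - 0) * conj (I + (1 - (r : ℂ) * I) - I) = 1 + r * I := by
      simp
    rw [h]
    simpa using h0
  · have h2 : (r : ℂ) ≠ 0 := Complex.ofReal_ne_zero.2 h0
    push_cast
    field_simp
    ring

theorem real_sqrt {r : ℝ} (h0 : 0 ≤ r) (hr : Point (r : ℂ)) : Point ((√r : ℝ) : ℂ) := by
  apply of_ofReal_mul_I
  refine line_circle (a := 0) (b := I) (c := ((r : ℂ) - 1) / 2) (d := ((r : ℂ) + 1) / 2) (e := 0)
    .zero I_mem (hr.sub .one).half (hr.add .one).half .zero I_ne_zero.symm ⟨√r, by ring⟩ ?_
  have h1 : ‖((√r : ℝ) : ℂ) * I - ((r : ℂ) - 1) / 2‖ ^ 2 = ‖((r : ℂ) + 1) / 2 - 0‖ ^ 2 := by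
    have e1 : ((√r : ℝ) : ℂ) * I - ((r : ℂ) - 1) / 2 = ⟨-((r - 1) / 2), √r⟩ := by
      apply Complex.ext <;> simp
    have e2 : ((r : ℂ) + 1) / 2 - 0 = (((r + 1) / 2 : ℝ) : ℂ) := by push_cast; ring
    rw [e1, e2, ← Complex.normSq_eq_norm_sq, ← Complex.normSq_eq_norm_sq, Complex.normSq_mk,
      Complex.normSq_ofReal]
    linear_combination Real.mul_self_sqrt h0
  exact (sq_eq_sq₀ (norm_nonneg _) (norm_nonneg _)).1 h1

theorem mul {z w : ℂ} (hz : Point z) (hw : Point w) : Point (z * w) := by
  apply of_re_im
  · rw [Complex.mul_re]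
    push_cast
    have h1 := hz.re.real_mul hw.re
    have h2 := hz.im.real_mul hw.im
    push_cast at h1 h2
    exact h1.sub h2
  · rw [Complex.mul_im]
    push_cast
    have h1 := hz.re.real_mul hw.im
    have h2 := hz.im.real_mul hw.re
    push_cast at h1 h2
    exact h1.add h2

theorem real_normSq {z : ℂ} (hz : Point z) : Point ((Complex.normSq z : ℝ) : ℂ) := by
  rw [Complex.normSq_apply]
  have h1 := hz.re.real_mul hz.re
  have h2 := hz.im.real_mul hz.im
  have h := h1.add h2
  rwa [← Complex.ofReal_add] at h

theorem inv {z : ℂ} (hz : Point z) : Point z⁻¹ := by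
  rw [Complex.inv_def]
  exact hz.reflect.mul hz.real_normSq.real_inv

theorem of_real_sq {r : ℝ} (h : Point ((r ^ 2 : ℝ) : ℂ)) : Point (r : ℂ) := by
  have h1 := h.real_sqrt (sq_nonneg r)
  rw [Real.sqrt_sq_eq_abs] at h1
  rcases abs_choice r with h2 | h2
  · rwa [h2] at h1
  · rw [h2] at h1
    have h3 := h1.neg
    rwa [Complex.ofReal_neg, neg_neg] at h3

theorem sqrt {z : ℂ} (h : Point (z ^ 2)) : Point z := by
  have h1 : Point (((z.re ^ 2 + z.im ^ 2 : ℝ)) : ℂ) := by
    have h2 := h.real_normSq.real_sqrt (Complex.normSq_nonneg _)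
    have e : √(Complex.normSq (z ^ 2)) = z.re ^ 2 + z.im ^ 2 := by
      rw [map_pow, Real.sqrt_sq (Complex.normSq_nonneg z), Complex.normSq_apply]
      ring
    rwa [e] at h2
  have h2 : Point (((z.re ^ 2 - z.im ^ 2 : ℝ)) : ℂ) := by
    have h3 := h.re
    have e : (z ^ 2).re = z.re ^ 2 - z.im ^ 2 := by
      rw [sq, Complex.mul_re]; ring
    rwa [e] at h3
  apply of_re_im
  · apply of_real_sq
    have h3 := (h1.add h2).half
    have e : (((z.re ^ 2 + z.im ^ 2 : ℝ) : ℂ) + ((z.re ^ 2 - z.im ^ 2 : ℝ) : ℂ)) / 2 =
        ((z.re ^ 2 : ℝ) : ℂ) := by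
      push_cast; ring
    rwa [e] at h3
  · apply of_real_sq
    have h3 := (h1.sub h2).half
    have e : (((z.re ^ 2 + z.im ^ 2 : ℝ) : ℂ) - ((z.re ^ 2 - z.im ^ 2 : ℝ) : ℂ)) / 2 =
        ((z.im ^ 2 : ℝ) : ℂ) := by
      push_cast; ring
    rwa [e] at h3

end Point

theorem IsConstructible.point {z : ℂ} (h : IsConstructible z) : Point z := by
  induction h with
  | zero => exact .zero
  | one => exact .one
  | add _ _ h1 h2 => exact h1.add h2
  | neg _ h1 => exact h1.neg
  | mul _ _ h1 h2 => exact h1.mul h2
  | inv _ h1 => exact h1.inv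
  | sqrt _ h1 => exact h1.sqrt

/-- **The points which can be constructed with ruler and compass from `0` and `1` are the numbers
obtained by the operations of a field and square roots.** -/
theorem point_iff_isConstructible {z : ℂ} : Point z ↔ IsConstructible z :=
  ⟨Point.isConstructible, IsConstructible.point⟩

end Fermat.Agent.Cor.Construct
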