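import Fermat.Agent.Corollaries.Construct.Polygon
import Fermat.Agent.Corollaries.Construct.Points
import Fermat.Agent.Corollaries.LW.Main

/-!
# Constructions with ruler and compass: the classical theorems (helper56)

`Point z` is the geometric definition of `Construct/Points.lean`: `z` is obtained from the points
`0` and `1` of the plane `ℂ` by finitely many intersections of lines and circles.

* `point_polygon_iff` (Gauss, Wantzel): the vertices of the regular `n`-gon (with centre `0` and one
  vertex `1`) are constructible iff `n` is a power of `2` times a product of different Fermat primes;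
* `doubling_the_cube`, `trisecting_the_angle`, `squaring_the_circle`: the three classical problems
  have no solution.
-/

set_option autoImplicit false

namespace Fermat.Agent.Cor.Construct

/-- **The theorem of Gauss and Wantzel**: the regular `n`-gon can be constructed with ruler and
compass if and only if `n` is a power of `2` times a product of different Fermat primes. -/
theorem point_polygon_iff {n : ℕ} (hn : n ≠ 0) :
    Point (Complex.exp (2 * Real.pi * Complex.I / n)) ↔ ∃ (k : ℕ) (S : Finset ℕ),
      (∀ p ∈ S, p.Prime ∧ ∃ m, p = 2 ^ 2 ^ m + 1) ∧ n = 2 ^ k * ∏ p ∈ S, p := by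
  rw [point_iff_isConstructible, gauss_wantzel hn]

/-- All vertices `ζ` of the regular `n`-gon: if `φ(n)` is a power of `2`, they are constructible. -/
theorem point_of_pow_eq_one {n : ℕ} (hn : n ≠ 0) (h : ∃ k, n.totient = 2 ^ k) {ζ : ℂ}
    (hζ : ζ ^ n = 1) : Point ζ := by
  have h1 := (isConstructible_iff_totient hn (Complex.isPrimitiveRoot_exp n hn)).2 h
  have : NeZero n := ⟨hn⟩
  obtain ⟨i, -, rfl⟩ := (Complex.isPrimitiveRoot_exp n hn).eq_pow_of_pow_eq_one hζ
  exact (h1.pow i).point

/-- **The regular 17-gon can be constructed** (Gauss, 30 March 1796). -/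
theorem point_heptadecagon {ζ : ℂ} (hζ : ζ ^ 17 = 1) : Point ζ :=
  point_of_pow_eq_one (n := 17) (by norm_num) ⟨4, by decide⟩ hζ

/-- **The cube cannot be doubled** (Wantzel 1837). -/
theorem doubling_the_cube : ¬ Point (((2 : ℝ) ^ ((1 : ℝ) / 3) : ℝ) : ℂ) := fun h =>
  not_isConstructible_cbrt_two h.isConstructible

/-- **The angle cannot be trisected** (Wantzel 1837): the point `exp (i π / 3)` of the unit circle
can be constructed, but none of the points `w` with `w ^ 3 = exp (i π / 3)`. -/
theorem trisecting_the_angle : Point (Complex.exp (Real.pi * Complex.I / 3)) ∧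
    ∀ w : ℂ, w ^ 3 = Complex.exp (Real.pi * Complex.I / 3) → ¬ Point w := by
  refine ⟨isConstructible_exp_pi_div_three.point, fun w hw h => ?_⟩
  have h6 : IsPrimitiveRoot (w ^ 3) 6 := by
    rw [hw]
    convert Complex.isPrimitiveRoot_exp 6 (by norm_num) using 2
    push_cast
    ring
  have h18 : orderOf w = 18 := by
    refine orderOf_eq_of_pow_and_pow_div_prime (by norm_num) ?_ ?_
    · have h1 := h6.pow_eq_one
      rw [← pow_mul] at h1
      exact h1
    · intro p hp hp18 h1
      have h2 : p ∣ 2 * 3 ^ 2 := by norm_num; exact hp18
      rcases (Nat.Prime.dvd_mul hp).1 h2 with h3 | h3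
      · rw [(Nat.prime_dvd_prime_iff_eq hp Nat.prime_two).1 h3] at h1
        norm_num at h1
        rw [show (9 : ℕ) = 3 * 3 by norm_num, pow_mul] at h1
        have h4 := (h6.pow_eq_one_iff_dvd 3).1 h1
        omega
      · rw [(Nat.prime_dvd_prime_iff_eq hp Nat.prime_three).1 (hp.dvd_of_dvd_pow h3)] at h1
        norm_num at h1
        rw [show (6 : ℕ) = 3 * 2 by norm_num, pow_mul] at h1
        have h4 := (h6.pow_eq_one_iff_dvd 2).1 h1
        omega
  have hprim : IsPrimitiveRoot w 18 := h18 ▸ IsPrimitiveRoot.orderOf w
  exact not_two_pow_of_three_dvd (by decide)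
    ((isConstructible_iff_totient (by norm_num) hprim).1 h.isConstructible)

/-- **The circle cannot be squared** (Lindemann 1882): `√π`, the side of the square with the area of
the unit circle, is not constructible. -/
theorem squaring_the_circle : ¬ Point ((√Real.pi : ℝ) : ℂ) := fun h =>
  not_isConstructible_of_sq_eq_pi LW.transcendental_pi
    (by rw [← Complex.ofReal_pow, Real.sq_sqrt Real.pi_pos.le]) h.isConstructible

/-- Neither can the circle be rectified: `π` is not constructible. -/
theorem not_point_pi : ¬ Point (Real.pi : ℂ) := by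
  intro h
  have h1 := (point_iff_isConstructible.1 h)
  have h2 := (finrank_of_isConstructible h1).1
  refine LW.transcendental_pi ?_
  have h3 : IsAlgebraic ℚ ((algebraMap ℝ ℂ) Real.pi) := h2.isAlgebraic
  exact (isAlgebraic_algebraMap_iff (algebraMap ℝ ℂ).injective).1 h3

end Fermat.Agent.Cor.Construct
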