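import Fermat.Agent.Corollaries.Construct.Basic
import Mathlib.NumberTheory.Cyclotomic.Gal
import Mathlib.NumberTheory.Cyclotomic.PrimitiveRoots
import Mathlib.RingTheory.Polynomial.Cyclotomic.Roots
import Mathlib.RingTheory.RootsOfUnity.Complex
import Mathlib.FieldTheory.KummerPolynomial
import Mathlib.NumberTheory.FLT.Three
import Mathlib.NumberTheory.Fermat

/-!
# Regular polygons, doubling the cube, trisecting the angle (helper56)

* `gauss_wantzel` (Gauss 1796, 1801, Wantzel 1837): the regular `n`-gon is constructible if and only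
  if `n` is a power of `2` times a product of different Fermat primes;
* `not_isConstructible_of_cube_eq_two`: the cube cannot be doubled;
* `not_isConstructible_exp_pi_div_nine`, `not_isConstructible_cos_pi_div_nine`: the angle `π / 3`
  cannot be trisected;
* `not_isConstructible_of_sq_eq_pi`: if `π` is transcendental, the circle cannot be squared.
-/

set_option autoImplicit false

open Polynomial

namespace Fermat.Agent.Cor.Construct

/-- The primitive `n`-th roots of unity are constructible iff `φ(n)` is a power of `2`. -/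
theorem isConstructible_iff_totient {n : ℕ} (hn : n ≠ 0) {ζ : ℂ} (hζ : IsPrimitiveRoot ζ n) :
    IsConstructible ζ ↔ ∃ k, n.totient = 2 ^ k := by
  have hpos : 0 < n := Nat.pos_of_ne_zero hn
  constructor
  · intro h
    obtain ⟨k, hk⟩ := natDegree_minpoly_of_isConstructible h
    rw [← cyclotomic_eq_minpoly_rat hζ hpos, natDegree_cyclotomic] at hk
    exact ⟨k, hk⟩
  · rintro ⟨k, hk⟩
    have : NeZero n := ⟨hn⟩
    have hcyc : IsCyclotomicExtension {n} ℚ (CyclotomicField n ℚ) :=
      CyclotomicField.isCyclotomicExtension n ℚ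
    have hG : IsGalois ℚ (CyclotomicField n ℚ) := IsCyclotomicExtension.isGalois {n} ℚ _
    have hfr : Module.finrank ℚ (CyclotomicField n ℚ) = 2 ^ k := by
      rw [IsCyclotomicExtension.finrank (n := n) (CyclotomicField n ℚ)
        (cyclotomic.irreducible_rat hpos), hk]
    have hp : IsPGroup 2 (CyclotomicField n ℚ ≃ₐ[ℚ] CyclotomicField n ℚ) :=
      IsPGroup.of_card (n := k) (by rw [IsGalois.card_aut_eq_finrank, hfr])
    have φ : CyclotomicField n ℚ →ₐ[ℚ] ℂ := IsAlgClosed.lift
    have h1 := isConstructible_of_isPGroup (CyclotomicField n ℚ) hp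
      (IsCyclotomicExtension.zeta n ℚ (CyclotomicField n ℚ))
    have h2 := h1.map φ.toRingHom
    have h3 : IsPrimitiveRoot (φ.toRingHom (IsCyclotomicExtension.zeta n ℚ (CyclotomicField n ℚ))) n :=
      (IsCyclotomicExtension.zeta_spec n ℚ (CyclotomicField n ℚ)).map_of_injective
        φ.toRingHom.injective
    obtain ⟨i, -, hi⟩ := h3.eq_pow_of_pow_eq_one hζ.pow_eq_one
    rw [← hi]
    exact h2.pow i

/-! ### The numbers `n` with `φ(n)` a power of `2` -/

theorem exists_totient_prod {S : Finset ℕ} (hS : ∀ p ∈ S, p.Prime ∧ ∃ m, p = 2 ^ 2 ^ m + 1) :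
    (∃ k, (∏ p ∈ S, p).totient = 2 ^ k) ∧ (∏ p ∈ S, p).Coprime 2 := by
  induction S using Finset.induction_on with
  | empty => exact ⟨⟨0, by simp⟩, by simp⟩
  | insert q S hq ih =>
    obtain ⟨⟨k, hk⟩, h2⟩ := ih fun p hp => hS p (Finset.mem_insert_of_mem hp)
    obtain ⟨hqp, m, hm⟩ := hS q (Finset.mem_insert_self q S)
    have hcop : q.Coprime (∏ p ∈ S, p) := by
      refine Nat.Coprime.prod_right fun p hp => ?_
      rw [Nat.coprime_primes hqp (hS p (Finset.mem_insert_of_mem hp)).1]
      rintro rfl
      exact hq hp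
    rw [Finset.prod_insert hq]
    refine ⟨⟨2 ^ m + k, ?_⟩, ?_⟩
    · rw [Nat.totient_mul hcop, hk, Nat.totient_prime hqp, pow_add]
      conv_lhs => rw [hm]
      rw [Nat.add_sub_cancel]
    · refine Nat.Coprime.mul_left ?_ h2
      rw [Nat.coprime_two_right, hm]
      exact Even.add_one ((Nat.even_pow.2 ⟨even_two, by positivity⟩))

/-- `φ(n)` is a power of `2` if and only if `n` is a power of `2` times a product of different Fermat
primes. -/
theorem exists_totient_eq_two_pow_iff {n : ℕ} (hn : n ≠ 0) :
    (∃ k, n.totient = 2 ^ k) ↔ ∃ (k : ℕ) (S : Finset ℕ),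
      (∀ p ∈ S, p.Prime ∧ ∃ m, p = 2 ^ 2 ^ m + 1) ∧ n = 2 ^ k * ∏ p ∈ S, p := by
  constructor
  · rintro ⟨j, hj⟩
    obtain ⟨k, m, hm, rfl⟩ := Nat.exists_eq_two_pow_mul_odd hn
    have hdvd : ∀ d, d ∣ m → d.totient ∣ 2 ^ j := fun d hd => by
      rw [← hj]
      exact Nat.totient_dvd_of_dvd (hd.mul_left _)
    have hodd : ∀ p, p.Prime → p ∣ m → p ≠ 2 := by
      rintro p - hpm rfl
      rw [Nat.odd_iff] at hm
      omega
    have hsq : Squarefree m := by
      rw [Nat.squarefree_iff_prime_squarefree]
      intro p hp hpp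
      have h1 := hdvd _ hpp
      rw [← sq, Nat.totient_prime_pow hp (by norm_num)] at h1
      have h2 : p ∣ 2 ^ j :=
        (Dvd.intro (p - 1) (by norm_num) : p ∣ p ^ (2 - 1) * (p - 1)).trans h1
      have h3 := (Nat.prime_dvd_prime_iff_eq hp Nat.prime_two).1 (hp.dvd_of_dvd_pow h2)
      exact hodd p hp ((Dvd.intro _ rfl).trans hpp) h3
    refine ⟨k, m.primeFactors, fun p hp => ?_, by rw [Nat.prod_primeFactors_of_squarefree hsq]⟩
    have hpp := Nat.prime_of_mem_primeFactors hp
    have hpm := Nat.dvd_of_mem_primeFactors hp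
    refine ⟨hpp, ?_⟩
    have h1 := hdvd _ hpm
    rw [Nat.totient_prime hpp] at h1
    obtain ⟨i, -, hi⟩ := (Nat.dvd_prime_pow Nat.prime_two).1 h1
    have h2 := hpp.two_le
    have h3 := hodd p hpp hpm
    have hp1 : p = 2 ^ i + 1 := by omega
    have hi0 : i ≠ 0 := by
      rintro rfl
      norm_num at hp1
      omega
    obtain ⟨m', hm'⟩ := Nat.pow_of_pow_add_prime (by norm_num : 1 < 2) hi0 (by rw [← hp1]; exact hpp)
    exact ⟨m', by rw [hp1, hm']⟩
  · rintro ⟨k, S, hS, rfl⟩
    obtain ⟨⟨j, hj⟩, h2⟩ := exists_totient_prod hS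
    rw [Nat.totient_mul (Nat.Coprime.pow_left k h2.symm), hj]
    rcases k with _ | k
    · exact ⟨j, by simp⟩
    · refine ⟨k + j, ?_⟩
      rw [Nat.totient_prime_pow_succ Nat.prime_two, pow_add]
      norm_num

/-- **The theorem of Gauss and Wantzel**: the regular `n`-gon is constructible with ruler and compass
if and only if `n` is a power of `2` times a product of different Fermat primes. -/
theorem gauss_wantzel {n : ℕ} (hn : n ≠ 0) :
    IsConstructible (Complex.exp (2 * Real.pi * Complex.I / n)) ↔ ∃ (k : ℕ) (S : Finset ℕ),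
      (∀ p ∈ S, p.Prime ∧ ∃ m, p = 2 ^ 2 ^ m + 1) ∧ n = 2 ^ k * ∏ p ∈ S, p := by
  rw [isConstructible_iff_totient hn (Complex.isPrimitiveRoot_exp n hn),
    exists_totient_eq_two_pow_iff hn]

/-- `cos (2 π / n)` is constructible if and only if the regular `n`-gon is. -/
theorem isConstructible_cos_iff {n : ℕ} :
    IsConstructible ((Real.cos (2 * Real.pi / n) : ℝ) : ℂ) ↔
      IsConstructible (Complex.exp (2 * Real.pi * Complex.I / n)) := by
  have h2 : ((Real.cos (2 * Real.pi / n) : ℝ) : ℂ) =
      (Complex.exp (2 * Real.pi * Complex.I / n) + (Complex.exp (2 * Real.pi * Complex.I / n))⁻¹) /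
        2 := by
    rw [Complex.ofReal_cos, Complex.cos, ← Complex.exp_neg]
    push_cast
    congr 2
    · congr 1
      ring
    · congr 1
      ring
  constructor
  · intro h
    set z := Complex.exp (2 * Real.pi * Complex.I / n) with hz
    have hz0 : z ≠ 0 := Complex.exp_ne_zero _
    refine IsConstructible.of_quadratic (A := 1)
      (B := -(2 * ((Real.cos (2 * Real.pi / n) : ℝ) : ℂ))) (C := 1) .one (.neg (.mul .two h)) .one
      one_ne_zero ?_
    rw [h2]
    field_simp
    ring
  · intro h
    rw [h2]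
    exact (h.add h.inv).div .two

/-- **The regular heptadecagon** (17-gon) is constructible (Gauss 1796). -/
theorem heptadecagon : IsConstructible (Complex.exp (2 * Real.pi * Complex.I / (17 : ℕ))) := by
  rw [isConstructible_iff_totient (by norm_num) (Complex.isPrimitiveRoot_exp 17 (by norm_num))]
  exact ⟨4, by decide⟩

theorem not_two_pow_of_three_dvd {m : ℕ} (h : 3 ∣ m) : ¬ ∃ k, m = 2 ^ k := by
  rintro ⟨k, rfl⟩
  have := Nat.Prime.dvd_of_dvd_pow Nat.prime_three h
  omega

/-- The regular heptagon is not constructible. -/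
theorem not_heptagon : ¬ IsConstructible (Complex.exp (2 * Real.pi * Complex.I / (7 : ℕ))) := by
  rw [isConstructible_iff_totient (by norm_num) (Complex.isPrimitiveRoot_exp 7 (by norm_num))]
  exact not_two_pow_of_three_dvd (by decide)

/-- The regular enneagon (9-gon) is not constructible. -/
theorem not_enneagon : ¬ IsConstructible (Complex.exp (2 * Real.pi * Complex.I / (9 : ℕ))) := by
  rw [isConstructible_iff_totient (by norm_num) (Complex.isPrimitiveRoot_exp 9 (by norm_num))]
  exact not_two_pow_of_three_dvd (by decide)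

/-! ### Trisection of the angle -/

/-- The angle `π / 3` (60 degrees) is constructible ... -/
theorem isConstructible_exp_pi_div_three :
    IsConstructible (Complex.exp (Real.pi * Complex.I / 3)) := by
  have h := (isConstructible_iff_totient (n := 6) (by norm_num)
    (Complex.isPrimitiveRoot_exp 6 (by norm_num))).2 ⟨1, by decide⟩
  convert h using 2
  push_cast
  ring

/-- ... but its third part `π / 9` (20 degrees) is not: **the angle cannot be trisected**. -/
theorem not_isConstructible_exp_pi_div_nine :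
    ¬ IsConstructible (Complex.exp (Real.pi * Complex.I / 9)) := by
  have h := mt (isConstructible_iff_totient (n := 18) (by norm_num)
    (Complex.isPrimitiveRoot_exp 18 (by norm_num))).1 (not_two_pow_of_three_dvd (by decide))
  convert h using 3
  push_cast
  ring

/-- `cos (π / 9)` is not constructible (while `cos (π / 3) = 1 / 2`). -/
theorem not_isConstructible_cos_pi_div_nine :
    ¬ IsConstructible ((Real.cos (Real.pi / 9) : ℝ) : ℂ) := by
  have h := mt (isConstructible_cos_iff (n := 18)).1
    (mt (isConstructible_iff_totient (n := 18) (by norm_num)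
      (Complex.isPrimitiveRoot_exp 18 (by norm_num))).1 (not_two_pow_of_three_dvd (by decide)))
  convert h using 4
  push_cast
  ring

/-! ### Doubling the cube -/

/-- `2` is not the cube of a rational number (Fermat's Last Theorem for the exponent `3`). -/
theorem rat_cube_ne_two (q : ℚ) : q ^ 3 ≠ 2 := by
  intro h
  have hq : q ≠ 0 := by
    rintro rfl
    norm_num at h
  exact fermatLastTheoremFor_iff_rat.1 fermatLastTheoremThree 1 1 q one_ne_zero one_ne_zero hq
    (by rw [h]; norm_num)

/-- **The cube cannot be doubled**: no complex number with `z ^ 3 = 2` is constructible. -/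
theorem not_isConstructible_of_cube_eq_two {z : ℂ} (hz : z ^ 3 = 2) : ¬ IsConstructible z := by
  intro h
  obtain ⟨k, hk⟩ := natDegree_minpoly_of_isConstructible h
  have hirr : Irreducible (X ^ 3 - C (2 : ℚ)) :=
    X_pow_sub_C_irreducible_of_prime Nat.prime_three rat_cube_ne_two
  have h1 : X ^ 3 - C (2 : ℚ) = minpoly ℚ z := by
    refine minpoly.eq_of_irreducible_of_monic hirr ?_ (monic_X_pow_sub_C _ (by norm_num))
    simp [hz]
  rw [← h1, natDegree_X_pow_sub_C] at hk
  exact not_two_pow_of_three_dvd (dvd_refl 3) ⟨k, hk⟩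

/-- The real number `2 ^ (1 / 3)` is not constructible. -/
theorem not_isConstructible_cbrt_two :
    ¬ IsConstructible (((2 : ℝ) ^ ((1 : ℝ) / 3) : ℝ) : ℂ) := by
  refine not_isConstructible_of_cube_eq_two ?_
  rw [← Complex.ofReal_pow, ← Real.rpow_natCast, ← Real.rpow_mul (by norm_num)]
  norm_num

/-! ### Squaring the circle -/

/-- If `π` is transcendental, **the circle cannot be squared**: no `z` with `z ^ 2 = π` is
constructible. -/
theorem not_isConstructible_of_sq_eq_pi (hπ : Transcendental ℚ Real.pi) {z : ℂ}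
    (hz : z ^ 2 = (Real.pi : ℂ)) : ¬ IsConstructible z := by
  intro h
  have h1 : IsIntegral ℚ ((Real.pi : ℝ) : ℂ) := by
    rw [← hz]
    exact (finrank_of_isConstructible (h.pow 2)).1
  refine hπ ?_
  have h2 : IsAlgebraic ℚ ((algebraMap ℝ ℂ) Real.pi) := h1.isAlgebraic
  exact (isAlgebraic_algebraMap_iff (algebraMap ℝ ℂ).injective).1 h2

end Fermat.Agent.Cor.Construct
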